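import Fermat.Agent.CAR.FQ2V.Twist
import Fermat.Agent.CAR.KLm.Defs
import Fermat.Agent.TOR.T1.Defs
import Fermat.Agent.GAL.KLC.GaussON

/-!
# CAR / FQ2V : the `(q+1)`-family of Gauss valuations

* `rd_iff`        : dictionary `T1.Rd (rhoOf A e) z φ ↔ GR.HasRed A (e.hom z) φ`;
* `GEmb.tw`       : an embedding followed by a twist by a root of unity;
* `GEmb.ofGen`    : a ring hom `E → ℚ̄((Q))` which maps a set of field generators into `GField`;
* `Idx q`, `fam`, `vFam`, `rhoFam` : the family indexed by `Option (Option (ZMod q)ˣ)`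
  (`none = ∞`, `some none = 0`, `some (some c) = mid c`);
* `setup_vFam`    : `KLm.Setup` from the orders of the reductions of `t`.
-/

set_option autoImplicit false

open ModularCurve AlgebraicCurve

noncomputable section

namespace Fermat.Agent.CAR.FQ2V

open Fermat.Agent.GR Fermat.Agent.GAL Fermat.Agent.GAL.KL Fermat.Agent.GAL.KLC Fermat.Agent.S28
open Fermat.Agent.TOR

variable (A : ValuationSubring Qb) {E : Type*} [Field E] [Algebra Qb E] (e : GEmb E)

/-- **the dictionary.** -/
theorem rd_iff {z : E} {φ : LaurentSeries (kA A)} :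
    T1.Rd (rhoOf A e) z φ ↔ HasRed A (e.hom z) φ := by
  constructor
  · rintro ⟨h, rfl⟩
    exact hasRed_rhoOf A e ⟨z, h⟩
  · intro h
    exact exists_rhoOf_eq A e h

/-- `Gauss` from the order of the reduction. -/
theorem gauss_vOf {t : E} {φ : LaurentSeries (kA A)} (h : HasRed A (e.hom t) φ) (hφ : φ.order < 0) :
    Gauss Qb (vOf A e) t := by
  obtain ⟨ht, hr⟩ := exists_rhoOf_eq A e h
  exact gauss_of_isRed (isRed_of A e) ht (by rw [hr]; exact hφ)

/-- an embedding followed by a twist by a root of unity. -/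
def GEmb.tw (ζ : Qbˣ) {n : ℕ} (hn : n ≠ 0) (hζ : ζ ^ n = 1) : GEmb E where
  hom := (twist ζ).comp e.hom
  const a := by
    show twist ζ (e.hom (algebraMap Qb E a)) = _
    rw [e.const, tw_C]
  mem z := twist_mem_GField ζ hn hζ (e.mem z)

@[simp] theorem GEmb.tw_hom_apply (ζ : Qbˣ) {n : ℕ} (hn : n ≠ 0) (hζ : ζ ^ n = 1) (z : E) :
    (e.tw ζ hn hζ).hom z = twist ζ (e.hom z) := rfl

/-- a ring hom which maps field generators into `GField`. -/
def GEmb.ofGen {I : Type*} (x : I → E)
    (hx : ∀ z : E, ∃ r s : MvPolynomial I Qb, z = MvPolynomial.aeval x r / MvPolynomial.aeval x s)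
    (f : E →+* LaurentSeries Qb) (hc : ∀ a : Qb, f (algebraMap Qb E a) = HahnSeries.C a)
    (hf : ∀ i, f (x i) ∈ GField Qb) : GEmb E where
  hom := f
  const := hc
  mem z := by
    have key : ∀ P : MvPolynomial I Qb, f (MvPolynomial.aeval x P) ∈ GField Qb := by
      intro P
      induction P using MvPolynomial.induction_on with
      | C a => rw [MvPolynomial.aeval_C, hc]; exact C_mem_GField a
      | add p q hp hq => rw [map_add, map_add]; exact add_mem hp hq
      | mul_X p i hp => rw [map_mul, map_mul, MvPolynomial.aeval_X]; exact mul_mem hp (hf i)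
    obtain ⟨r, s, rfl⟩ := hx z
    rw [map_div₀]
    exact div_mem (key r) (key s)

/-! ## the family -/

/-- the index set: `none = ∞`, `some none = 0`, `some (some c) = mid c`. -/
abbrev Idx (q : ℕ) : Type := Option (Option (ZMod q)ˣ)

variable {q : ℕ}

/-- the family of embeddings `e_∞ = e`, `e_0 = e ∘ w`, `e_{mid,c}`. -/
def fam (w : E ≃ₐ[Qb] E) (eM : (ZMod q)ˣ → GEmb E) : Idx q → GEmb E
  | none => e
  | some none => e.comp (w : E →ₐ[Qb] E)
  | some (some c) => eM c

/-- a family of valuations with common value group from a family of embeddings. -/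
def vFam {ι : Type*} (f : ι → GEmb E) (i : ι) : Valuation E (ΓU A) := vOf A (f i)

/-- the reduction maps. -/
def rhoFam {ι : Type*} (f : ι → GEmb E) (i : ι) : (vFam A f i).integer →+* LaurentSeries (kA A) :=
  rhoOf A (f i)

variable {ι : Type*} (f : ι → GEmb E)

theorem isRed_fam (i : ι) : IsRed Qb (vFam A f i) (rhoFam A f i) := isRed_of A (f i)

theorem arch_fam {ℓ : ℕ} (hℓ : ℓ.Prime) (hA : A.LiesOverPrime ℓ) (i : ι) : Arch (vFam A f i) :=
  arch_of A (f i) hℓ hA

theorem vFam_natCast {ℓ n : ℕ} (hℓ : ℓ.Prime) (hA : A.LiesOverPrime ℓ) (hn : ¬ ℓ ∣ n) (i : ι) :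
    vFam A f i (n : E) = 1 := vOf_natCast A (f i) hℓ hA hn

theorem vFam_algebraMap (i j : ι) (a : Qb) :
    vFam A f i (algebraMap Qb E a) = vFam A f j (algebraMap Qb E a) := by
  rw [vFam, vFam, vOf_algebraMap, vOf_algebraMap]

theorem rd_fam_iff (i : ι) {z : E} {φ : LaurentSeries (kA A)} :
    T1.Rd (rhoFam A f i) z φ ↔ HasRed A ((f i).hom z) φ := rd_iff A (f i)

theorem vFam_le_one_iff (i : ι) {z : E} : vFam A f i z ≤ 1 ↔ ∃ φ, HasRed A ((f i).hom z) φ :=
  vOf_le_one_iff A (f i)

theorem vFam_lt_one_iff (i : ι) {z : E} : vFam A f i z < 1 ↔ HasRed A ((f i).hom z) 0 :=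
  vOf_lt_one_iff A (f i)

/-- `KLm.Setup` for a parameter all of whose reductions have a pole. -/
theorem setup_vFam {t : E} (ht : ∀ i, ∃ φ : LaurentSeries (kA A), HasRed A ((f i).hom t) φ ∧ φ.order < 0) :
    KLm.Setup Qb (vFam A f) t where
  G i := by
    obtain ⟨φ, h, hφ⟩ := ht i
    exact gauss_vOf A (f i) h hφ
  eqL := vFam_algebraMap A f

/-- the value of `vOf` only depends on the series `e.hom z` (also for different fields). -/
theorem vOf_eq_of_hom_eq {E' : Type*} [Field E'] [Algebra Qb E'] (e' : GEmb E') {z : E} {z' : E'}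
    (h : e.hom z = e'.hom z') : vOf A e z = vOf A e' z' := by
  rw [vOf_apply, vOf_apply]
  congr 1
  exact Subtype.ext h

end Fermat.Agent.CAR.FQ2V
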