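import Fermat.Agent.GAL.KLC.ValThm
import Fermat.Agent.GAL.KLC.ValArch

/-!
# CAR / FQ2V : the universal Gauss valuation

`GR.GField ℚ̄ ⊆ ℚ̄((Q))` is the subfield generated by the constants and `ℤ((Q))`; every nonzero element
has, up to a constant, a nonzero reduction.  So it carries ONE Gauss valuation `vU A` (value group
`ΓU A`), and every embedding `e : E → ℚ̄((Q))` over `ℚ̄` with image in `GField` gives a valuation
`vOf A e : Valuation E (ΓU A)` with a reduction map `rhoOf A e` (`KLC.IsRed`, `KL.Arch`).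
All these valuations have the SAME value group (needed by `CAR.KLm`).
-/

set_option autoImplicit false

open ModularCurve AlgebraicCurve Polynomial

noncomputable section

namespace Fermat.Agent.CAR.FQ2V

open Fermat.Agent.GR Fermat.Agent.GAL Fermat.Agent.GAL.KL Fermat.Agent.GAL.KLC

variable (A : ValuationSubring Qb)

/-! ## the universal valuation -/

theorem C_mem_GField (a : Qb) : (HahnSeries.C a : LaurentSeries Qb) ∈ GField Qb :=
  Subfield.subset_closure (Or.inl ⟨a, algebraMap_eq_C a⟩)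

/-- the constants in `GField`. -/
def cU : Qb →+* GField Qb :=
  (HahnSeries.C : Qb →+* LaurentSeries Qb).codRestrict (GField Qb) C_mem_GField

@[simp] theorem coe_cU (a : Qb) : ((cU a : GField Qb) : LaurentSeries Qb) = HahnSeries.C a := rfl

theorem exists_hasRed_C_mul {x : LaurentSeries Qb} (hx : x ∈ GField Qb) (hx0 : x ≠ 0) :
    ∃ c : Qb, c ≠ 0 ∧ ∃ z : LaurentSeries (kA A), z ≠ 0 ∧ HasRed A (HahnSeries.C c * x) z := by
  obtain ⟨c, hc, z, hz, h⟩ := exists_hasRed_of_mem_GField A hx hx0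
  exact ⟨c, hc, z, hz, by rwa [HahnSeries.C_mul_eq_smul]⟩

/-- the valuation ring of the Gauss valuation on `GField ℚ̄`. -/
def OvU : ValuationSubring (GField Qb) where
  carrier := {z | ∃ zb, HasRed A (z : LaurentSeries Qb) zb}
  mul_mem' := by
    rintro a b ⟨x, hx⟩ ⟨y, hy⟩
    exact ⟨x * y, hx.mul hy⟩
  one_mem' := ⟨1, HasRed.one⟩
  add_mem' := by
    rintro a b ⟨x, hx⟩ ⟨y, hy⟩
    exact ⟨x + y, hx.add hy⟩
  zero_mem' := ⟨0, hasRed_zero A⟩
  neg_mem' := by
    rintro a ⟨x, hx⟩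
    exact ⟨-x, hasRed_neg hx⟩
  mem_or_inv_mem' := by
    intro z
    by_cases hz : z = 0
    · left
      subst hz
      exact ⟨0, hasRed_zero A⟩
    have hz' : (z : LaurentSeries Qb) ≠ 0 := fun h => hz (Subtype.ext h)
    obtain ⟨c, hc, zb, hzb, h⟩ := exists_hasRed_C_mul A z.2 hz'
    have hC : (HahnSeries.C c : LaurentSeries Qb) ≠ 0 := by
      rw [Ne, map_eq_zero_iff _ HahnSeries.C_injective]; exact hc
    rcases A.mem_or_inv_mem c with hcA | hcA
    · right
      refine ⟨HahnSeries.C (IsLocalRing.residue A ⟨c, hcA⟩) * zb⁻¹, ?_⟩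
      have := (hasRed_C A ⟨c, hcA⟩).mul (h.inv hzb)
      have e : ((z⁻¹ : GField Qb) : LaurentSeries Qb)
          = HahnSeries.C c * (HahnSeries.C c * (z : LaurentSeries Qb))⁻¹ := by
        rw [mul_inv, ← mul_assoc, mul_inv_cancel₀ hC, one_mul]; rfl
      rw [e]; exact this
    · left
      refine ⟨HahnSeries.C (IsLocalRing.residue A ⟨c⁻¹, hcA⟩) * zb, ?_⟩
      have := (hasRed_C A ⟨c⁻¹, hcA⟩).mul h
      have e : (z : LaurentSeries Qb)
          = HahnSeries.C (c⁻¹) * (HahnSeries.C c * (z : LaurentSeries Qb)) := by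
        rw [← mul_assoc, ← map_mul, inv_mul_cancel₀ hc, map_one, one_mul]
      rw [e]; exact this

/-- the common value group. -/
abbrev ΓU : Type := (OvU A).ValueGroup

/-- the universal Gauss valuation. -/
def vU : Valuation (GField Qb) (ΓU A) := (OvU A).valuation

theorem vU_le_one_iff {z : GField Qb} :
    vU A z ≤ 1 ↔ ∃ zb, HasRed A (z : LaurentSeries Qb) zb :=
  (OvU A).valuation_le_one_iff z

theorem vU_lt_one_iff {z : GField Qb} : vU A z < 1 ↔ HasRed A (z : LaurentSeries Qb) 0 := by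
  constructor
  · intro h
    obtain ⟨zb, hzb⟩ := (vU_le_one_iff A).1 h.le
    by_cases h0 : zb = 0
    · rwa [h0] at hzb
    · exfalso
      have hinv : vU A z⁻¹ ≤ 1 := (vU_le_one_iff A).2 ⟨zb⁻¹, hzb.inv h0⟩
      have hz0 : z ≠ 0 := fun e => hzb.ne_zero h0 (by rw [e]; rfl)
      have hv0 : vU A z ≠ 0 := (Valuation.ne_zero_iff _).2 hz0
      rw [map_inv₀, inv_le_one₀ (zero_lt_iff.2 hv0)] at hinv
      exact absurd h (not_lt.2 hinv)
  · intro h
    have hle : vU A z ≤ 1 := (vU_le_one_iff A).2 ⟨0, h⟩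
    refine lt_of_le_of_ne hle fun h1 => ?_
    have hz0 : z ≠ 0 := fun e => by rw [e, map_zero] at h1; exact zero_ne_one h1
    have hinv : vU A z⁻¹ ≤ 1 := by rw [map_inv₀, h1, inv_one]
    obtain ⟨y, hy⟩ := (vU_le_one_iff A).1 hinv
    have hmul := h.mul hy
    have e : (z : LaurentSeries Qb) * ((z⁻¹ : GField Qb) : LaurentSeries Qb) = 1 := by
      have := congrArg (Subtype.val) (mul_inv_cancel₀ hz0)
      exact this
    rw [e, zero_mul] at hmul
    exact ValThm_not_hasRed_one_zero A hmul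

/-- if `z` has a nonzero reduction then `v z = 1`. -/
theorem vU_eq_one_of_hasRed {z : GField Qb} {zb : LaurentSeries (kA A)}
    (h : HasRed A (z : LaurentSeries Qb) zb) (hzb : zb ≠ 0) : vU A z = 1 := by
  refine le_antisymm ((vU_le_one_iff A).2 ⟨zb, h⟩) (not_lt.1 fun hlt => hzb ?_)
  exact h.unique ((vU_lt_one_iff A).1 hlt)

/-- the value group of `vU` is that of the constants. -/
theorem vU_exists_const {z : GField Qb} (hz : z ≠ 0) :
    ∃ a : Qb, a ≠ 0 ∧ vU A z = vU A (cU a) := by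
  have hz' : (z : LaurentSeries Qb) ≠ 0 := fun h => hz (Subtype.ext h)
  obtain ⟨c, hc, zb, hzb, h⟩ := exists_hasRed_C_mul A z.2 hz'
  have h3 : vU A (cU c * z) = 1 := vU_eq_one_of_hasRed A (z := cU c * z) h hzb
  refine ⟨c⁻¹, inv_ne_zero hc, ?_⟩
  rw [map_mul] at h3
  rw [map_inv₀, map_inv₀]
  exact eq_inv_of_mul_eq_one_right h3

theorem vU_prime_lt_one {ℓ : ℕ} (hA : A.LiesOverPrime ℓ) : vU A (ℓ : GField Qb) < 1 := by
  rw [vU_lt_one_iff]
  have h1 := hasRed_C A (ℓ : A)
  have h2 : IsLocalRing.residue A (ℓ : A) = 0 := by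
    rw [map_natCast]; exact residue_natCast_eq_zero hA
  rw [h2, map_zero] at h1
  have e1 : (HahnSeries.C (((ℓ : A) : Qb)) : LaurentSeries Qb)
      = ((ℓ : GField Qb) : LaurentSeries Qb) := by
    simp
  rwa [e1] at h1

theorem archU {ℓ : ℕ} (hℓ : ℓ.Prime) (hA : A.LiesOverPrime ℓ) : Arch (vU A) := by
  intro x hx γ hγ
  obtain ⟨z, rfl⟩ := (OvU A).valuation_surjective γ
  have hz : z ≠ 0 := by
    rintro rfl
    exact hγ (map_zero _)
  by_cases hx0 : x = 0
  · refine ⟨1, ?_⟩
    rw [hx0, map_zero, pow_one]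
    exact zero_lt_iff.mpr hγ
  obtain ⟨a, -, ha⟩ := vU_exists_const A hx0
  obtain ⟨b, hb0, hb⟩ := vU_exists_const A hz
  set w : Valuation Qb (ΓU A) := (vU A).comap cU with hw
  have hwℓ : w (ℓ : Qb) < 1 := by
    rw [hw, Valuation.comap_apply, map_natCast]
    exact vU_prime_lt_one A hA
  have hwa : w a < 1 := by
    rw [hw, Valuation.comap_apply, ← ha]; exact hx
  have : Algebra.IsAlgebraic ℚ Qb := AlgebraicClosure.isAlgebraic ℚ
  obtain ⟨m, hm⟩ := ValArch.exists_pow_lt hℓ hwℓ hwa hb0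
  refine ⟨m, ?_⟩
  rw [ha]
  change _ < vU A z
  rw [hb]
  exact hm

/-! ## embeddings into `GField` -/

/-- an embedding over `ℚ̄` of a field `E` into `ℚ̄((Q))`, with image in `GField ℚ̄`. -/
structure GEmb (E : Type*) [Field E] [Algebra Qb E] where
  /-- the embedding -/
  hom : E →+* LaurentSeries Qb
  const : ∀ a : Qb, hom (algebraMap Qb E a) = HahnSeries.C a
  mem : ∀ z : E, hom z ∈ GField Qb

variable {E : Type*} [Field E] [Algebra Qb E] (e : GEmb E)

/-- the embedding, with values in `GField`. -/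
def GEmb.lift : E →+* GField Qb := e.hom.codRestrict (GField Qb) e.mem

@[simp] theorem GEmb.coe_lift (z : E) : ((e.lift z : GField Qb) : LaurentSeries Qb) = e.hom z := rfl

theorem GEmb.lift_algebraMap (a : Qb) : e.lift (algebraMap Qb E a) = cU a :=
  Subtype.ext (e.const a)

/-- the Gauss valuation of `E` attached to the embedding `e`. -/
def vOf : Valuation E (ΓU A) := (vU A).comap e.lift

theorem vOf_apply (z : E) : vOf A e z = vU A (e.lift z) := rfl

theorem vOf_le_one_iff {z : E} : vOf A e z ≤ 1 ↔ ∃ zb, HasRed A (e.hom z) zb :=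
  vU_le_one_iff A

theorem vOf_lt_one_iff {z : E} : vOf A e z < 1 ↔ HasRed A (e.hom z) 0 :=
  vU_lt_one_iff A

theorem mem_integer_iff {z : E} : z ∈ (vOf A e).integer ↔ ∃ zb, HasRed A (e.hom z) zb := by
  rw [Valuation.mem_integer_iff]
  exact vOf_le_one_iff A e

theorem vOf_eq_one_of_hasRed {z : E} {zb : LaurentSeries (kA A)} (h : HasRed A (e.hom z) zb)
    (hzb : zb ≠ 0) : vOf A e z = 1 :=
  vU_eq_one_of_hasRed A (z := e.lift z) h hzb

/-- all the valuations `vOf A e` agree on the constants (also for different fields `E`). -/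
theorem vOf_algebraMap (a : Qb) : vOf A e (algebraMap Qb E a) = vU A (cU a) := by
  rw [vOf_apply, e.lift_algebraMap]

/-- the reduction of an element of `O_v`. -/
def rhoOfFun (z : (vOf A e).integer) : LaurentSeries (kA A) :=
  ((mem_integer_iff A e).mp z.2).choose

theorem hasRed_rhoOfFun (z : (vOf A e).integer) : HasRed A (e.hom (z : E)) (rhoOfFun A e z) :=
  ((mem_integer_iff A e).mp z.2).choose_spec

/-- the reduction map `O_v → k((Q))`. -/
def rhoOf : (vOf A e).integer →+* LaurentSeries (kA A) where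
  toFun := rhoOfFun A e
  map_one' := (hasRed_rhoOfFun A e 1).unique (by
    show HasRed A (e.hom 1) 1
    rw [map_one]; exact HasRed.one)
  map_mul' a b := (hasRed_rhoOfFun A e (a * b)).unique (by
    show HasRed A (e.hom ((a : E) * (b : E))) _
    rw [map_mul]; exact (hasRed_rhoOfFun A e a).mul (hasRed_rhoOfFun A e b))
  map_zero' := (hasRed_rhoOfFun A e 0).unique (by
    show HasRed A (e.hom 0) 0
    rw [map_zero]; exact hasRed_zero A)
  map_add' a b := (hasRed_rhoOfFun A e (a + b)).unique (by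
    show HasRed A (e.hom ((a : E) + (b : E))) _
    rw [map_add]; exact (hasRed_rhoOfFun A e a).add (hasRed_rhoOfFun A e b))

theorem hasRed_rhoOf (z : (vOf A e).integer) : HasRed A (e.hom (z : E)) (rhoOf A e z) :=
  hasRed_rhoOfFun A e z

theorem rhoOf_eq_of_hasRed {z : (vOf A e).integer} {zb : LaurentSeries (kA A)}
    (h : HasRed A (e.hom (z : E)) zb) : rhoOf A e z = zb :=
  (hasRed_rhoOf A e z).unique h

/-- the convenient form: from `HasRed` to membership and the value of `rhoOf`. -/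
theorem exists_rhoOf_eq {z : E} {zb : LaurentSeries (kA A)} (h : HasRed A (e.hom z) zb) :
    ∃ hz : z ∈ (vOf A e).integer, rhoOf A e ⟨z, hz⟩ = zb :=
  ⟨(mem_integer_iff A e).2 ⟨zb, h⟩, rhoOf_eq_of_hasRed A e h⟩

theorem isRed_of : IsRed Qb (vOf A e) (rhoOf A e) where
  ker z := by
    constructor
    · intro h
      have := hasRed_rhoOf A e z
      rw [h] at this
      exact (vOf_lt_one_iff A e).2 this
    · intro h
      exact rhoOf_eq_of_hasRed A e ((vOf_lt_one_iff A e).1 h)
  const a ha := by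
    obtain ⟨zb, hzb⟩ := (mem_integer_iff A e).1 ha
    rw [e.const] at hzb
    have haA : a ∈ A := ValThm_mem_of_hasRed_C A hzb
    refine ⟨IsLocalRing.residue A ⟨a, haA⟩, rhoOf_eq_of_hasRed A e ?_⟩
    show HasRed A (e.hom (algebraMap Qb E a)) _
    rw [e.const]
    exact hasRed_C A ⟨a, haA⟩
  const_surj c := by
    obtain ⟨a, rfl⟩ := IsLocalRing.residue_surjective c
    have hr : HasRed A (e.hom (algebraMap Qb E (a : Qb)))
        (HahnSeries.C (IsLocalRing.residue A a)) := by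
      rw [e.const]
      exact hasRed_C A a
    exact ⟨a, (mem_integer_iff A e).2 ⟨_, hr⟩, rhoOf_eq_of_hasRed A e hr⟩
  val z hz := by
    have hz' : e.lift z ≠ 0 := (_root_.map_ne_zero _).2 hz
    obtain ⟨a, -, ha⟩ := vU_exists_const A hz'
    exact ⟨a, by rw [vOf_algebraMap, vOf_apply, ha]⟩

theorem arch_of {ℓ : ℕ} (hℓ : ℓ.Prime) (hA : A.LiesOverPrime ℓ) : Arch (vOf A e) :=
  fun x hx γ hγ => archU A hℓ hA (e.lift x) hx γ hγ

theorem vOf_prime_lt_one {ℓ : ℕ} (hA : A.LiesOverPrime ℓ) : vOf A e (ℓ : E) < 1 := by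
  rw [vOf_apply, map_natCast]
  exact vU_prime_lt_one A hA

theorem vOf_natCast {ℓ n : ℕ} (hℓ : ℓ.Prime) (hA : A.LiesOverPrime ℓ) (hn : ¬ ℓ ∣ n) :
    vOf A e (n : E) = 1 := by
  have h := ValArch.intCast_eq_one hℓ (vOf_prime_lt_one A e hA) (n := (n : ℤ))
    (by rwa [Int.natCast_dvd_natCast])
  rwa [Int.cast_natCast] at h

theorem vOf_sub_one_lt {W : E} (h : HasRed A (e.hom W) 1) : vOf A e (W - 1) < 1 := by
  rw [vOf_lt_one_iff]
  have := h.add (hasRed_neg (HasRed.one (A := A)))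
  rw [add_neg_cancel] at this
  rw [map_sub, map_one, sub_eq_add_neg]
  exact this

/-- `v (z - z') < 1` iff same reduction. -/
theorem vOf_sub_lt_one_of_hasRed {z z' : E} {zb : LaurentSeries (kA A)} (h : HasRed A (e.hom z) zb)
    (h' : HasRed A (e.hom z') zb) : vOf A e (z - z') < 1 := by
  rw [vOf_lt_one_iff]
  have := h.add (hasRed_neg h')
  rw [add_neg_cancel] at this
  rw [map_sub, sub_eq_add_neg]
  exact this

/-- series with integer coefficients reduce coefficientwise. -/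
theorem hasRed_int (y : LaurentSeries ℤ) :
    HasRed A (coeffMap (Int.castRingHom Qb) y) (coeffMap (Int.castRingHom (kA A)) y) := by
  have h1 := HasRed.of_int (A := A) (coeffMap (Int.castRingHom A) y)
  rw [coeffMap_coeffMap, coeffMap_coeffMap] at h1
  have e1 : A.subtype.comp (Int.castRingHom A) = Int.castRingHom Qb := Subsingleton.elim _ _
  have e2 : (IsLocalRing.residue A).comp (Int.castRingHom A) = Int.castRingHom (kA A) :=
    Subsingleton.elim _ _
  rwa [e1, e2] at h1

/-! ## composition with a homomorphism of fields -/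

variable {E' : Type*} [Field E'] [Algebra Qb E']

/-- precomposition with a `ℚ̄`-homomorphism. -/
def GEmb.comp (f : E' →ₐ[Qb] E) : GEmb E' where
  hom := e.hom.comp (f : E' →+* E)
  const a := by
    show e.hom (f (algebraMap Qb E' a)) = _
    rw [f.commutes, e.const]
  mem z := e.mem _

@[simp] theorem GEmb.comp_hom_apply (f : E' →ₐ[Qb] E) (z : E') : (e.comp f).hom z = e.hom (f z) := rfl

theorem vOf_comp (f : E' →ₐ[Qb] E) (z : E') : vOf A (e.comp f) z = vOf A e (f z) := rfl

theorem rhoOf_comp (f : E' →ₐ[Qb] E) (z : (vOf A (e.comp f)).integer)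
    (h : f (z : E') ∈ (vOf A e).integer) : rhoOf A e ⟨f (z : E'), h⟩ = rhoOf A (e.comp f) z :=
  rhoOf_eq_of_hasRed A e (hasRed_rhoOf A (e.comp f) z)

/-! ## the standard embedding of `FL ℚ̄ M` and the comparison with `KLC.vG` -/

/-- the inclusion `FL ℚ̄ M ⊆ ℚ̄((Q))`. -/
def eStd (M : ℕ) : GEmb (FL Qb M) where
  hom := (algebraMap (FL Qb M) (LaurentSeries Qb))
  const a := ValThm_coe_algebraMap M a
  mem z := laurentBaseChange_le_GField M z.2

@[simp] theorem eStd_hom_apply (M : ℕ) (z : FL Qb M) : (eStd M).hom z = (z : LaurentSeries Qb) := rfl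

theorem vOf_eStd_le_one_iff (M : ℕ) (z : FL Qb M) : vOf A (eStd M) z ≤ 1 ↔ vG A M z ≤ 1 := by
  rw [vOf_le_one_iff, ValThm_le_one_iff]; rfl

theorem vOf_eStd_lt_one_iff (M : ℕ) (z : FL Qb M) : vOf A (eStd M) z < 1 ↔ vG A M z < 1 := by
  rw [vOf_lt_one_iff, vG_lt_one_iff]; rfl

theorem rhoOf_eStd (M : ℕ) (z : (vOf A (eStd M)).integer) (h : (z : FL Qb M) ∈ (vG A M).integer) :
    rho A M ⟨(z : FL Qb M), h⟩ = rhoOf A (eStd M) z :=
  rho_eq_of_hasRed A M (hasRed_rhoOf A (eStd M) z)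

end Fermat.Agent.CAR.FQ2V
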