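import Fermat.Agent.CAR.FQ2V.GVal
import Fermat.Agent.GAL.CT.Theta

/-!
# CAR / FQ2V : twist calculus

`twist ξ : x(Q) ↦ x(ξ Q)`.
* `twist_mem_GField` : twisting by a root of unity preserves `GField ℚ̄`;
* `hasRed_twist`     : if `ζ^q = 1` and `A` lies over `q`, twisting by `ζ` does not change the reduction;
* `hasRed_twist_sub_div` : `(x(ζ^c Q) - x(Q)) / (ζ - 1)` reduces to `c · θ(x̄)`, `θ = Q d/dQ`;
* `hasRed_qExpand'`  : `x(Q^d)` reduces to `x̄(Q^d)`.
-/

set_option autoImplicit false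

open ModularCurve AlgebraicCurve

noncomputable section

namespace Fermat.Agent.CAR.FQ2V

open Fermat.Agent.GR Fermat.Agent.GAL Fermat.Agent.GAL.KL Fermat.Agent.GAL.KLC Fermat.Agent.S28

/-! ## generalities -/

theorem tw_coeffMap {R S : Type*} [CommRing R] [CommRing S] (f : R →+* S) (ξ : Rˣ)
    (x : LaurentSeries R) :
    coeffMap f (twist ξ x) = twist (Units.map (f : R →* S) ξ) (coeffMap f x) := by
  ext n
  rw [coeffMap_coeff, twist_coeff, twist_coeff, coeffMap_coeff, map_mul, ← map_zpow]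
  rfl

theorem tw_one {R : Type*} [CommRing R] (x : LaurentSeries R) : twist (1 : Rˣ) x = x := by
  ext n; simp

theorem tw_C {R : Type*} [CommRing R] (ξ : Rˣ) (a : R) :
    twist ξ (HahnSeries.C a : LaurentSeries R) = HahnSeries.C a := by
  ext n
  rw [twist_coeff]
  by_cases hn : n = 0
  · subst hn; simp
  · rw [HahnSeries.C_apply, HahnSeries.coeff_single_of_ne hn, mul_zero]

theorem zpow_eq_pow_emod {G : Type*} [Group G] (ζ : G) {n : ℕ} (hζ : ζ ^ n = 1) (k : ℤ) :
    ζ ^ k = ζ ^ (k % (n : ℤ)) := by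
  conv_lhs => rw [← Int.emod_add_mul_ediv k n, zpow_add, zpow_mul, zpow_natCast, hζ, one_zpow,
    mul_one]

/-! ## `GField` is stable under twisting by roots of unity -/

/-- the part of `J` with exponents `≡ r mod n`. -/
def part (n : ℕ) (r : ℤ) (J : LaurentSeries ℤ) : LaurentSeries ℤ :=
  HahnSeries.mk (fun k => if k % (n : ℤ) = r then J.coeff k else 0)
    (J.isPWO_support.mono (fun k hk => by
      simp only [Function.mem_support, ne_eq] at hk
      exact fun h => hk (by rw [h, ite_self])))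

@[simp] theorem part_coeff (n : ℕ) (r : ℤ) (J : LaurentSeries ℤ) (k : ℤ) :
    (part n r J).coeff k = if k % (n : ℤ) = r then J.coeff k else 0 := rfl

theorem twist_intS (ζ : Qbˣ) {n : ℕ} (hn : n ≠ 0) (hζ : ζ ^ n = 1) (J : LaurentSeries ℤ) :
    twist ζ (intS Qb J) =
      ∑ r ∈ Finset.range n, HahnSeries.C ((ζ ^ r : Qbˣ) : Qb) * intS Qb (part n (r : ℤ) J) := by
  ext k
  rw [twist_coeff, HahnSeries.coeff_sum]
  have hn' : (0 : ℤ) < n := by exact_mod_cast Nat.pos_of_ne_zero hn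
  have h0 : 0 ≤ k % (n : ℤ) := Int.emod_nonneg _ hn'.ne'
  have h1 : k % (n : ℤ) < n := Int.emod_lt_of_pos _ hn'
  have h2 : (((k % (n : ℤ)).toNat : ℕ) : ℤ) = k % (n : ℤ) := Int.toNat_of_nonneg h0
  rw [Finset.sum_eq_single (k % (n : ℤ)).toNat]
  · rw [HahnSeries.C_mul_eq_smul, HahnSeries.coeff_smul, coeffMap_coeff, coeffMap_coeff, part_coeff,
      h2, if_pos rfl, smul_eq_mul, zpow_eq_pow_emod ζ hζ k, ← h2, zpow_natCast, h2]
  · intro r _ hr
    rw [HahnSeries.C_mul_eq_smul, HahnSeries.coeff_smul, coeffMap_coeff, part_coeff, if_neg, map_zero,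
      smul_zero]
    intro h
    apply hr
    rw [h, Int.toNat_natCast]
  · intro h
    exfalso
    apply h
    rw [Finset.mem_range]
    omega

theorem intS_mem_GField (J : LaurentSeries ℤ) : intS Qb J ∈ GField Qb :=
  Subfield.subset_closure (Or.inr ⟨J, rfl⟩)

theorem twist_mem_GField (ζ : Qbˣ) {n : ℕ} (hn : n ≠ 0) (hζ : ζ ^ n = 1) {x : LaurentSeries Qb}
    (hx : x ∈ GField Qb) : twist ζ x ∈ GField Qb := by
  have hle : GField Qb ≤ (GField Qb).comap (twist ζ) := by
    rw [GField, Subfield.closure_le]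
    rintro _ (⟨c, rfl⟩ | ⟨J, rfl⟩)
    · show twist ζ (algebraMap Qb (LaurentSeries Qb) c) ∈ GField Qb
      rw [algebraMap_eq_C, tw_C]
      exact C_mem_GField c
    · show twist ζ (intS Qb J) ∈ GField Qb
      rw [twist_intS ζ hn hζ]
      exact sum_mem fun r _ => mul_mem (C_mem_GField _) (intS_mem_GField _)
  exact hle hx

/-! ## reduction -/

variable {A : ValuationSubring Qb} {q : ℕ}

/-- twisting by a `q`-th root of unity does not change the reduction (`A` over `q`). -/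
theorem hasRed_twist (hq : q.Prime) (hA : A.LiesOverPrime q) (ζ : Qbˣ) (hζ : ζ ^ q = 1)
    {x : LaurentSeries Qb} {φ : LaurentSeries (kA A)} (h : HasRed A x φ) :
    HasRed A (twist ζ x) φ := by
  have := h.map (twist (rootUnit A ζ hq.ne_zero hζ)) (twist ζ) id (map_mul _) (fun _ _ => rfl)
    (fun y => by rw [tw_coeffMap, map_subtype_rootUnit])
    (fun y => by rw [tw_coeffMap, map_residue_rootUnit hq hA, tw_one]; rfl)
    (fun _ hw => hw)
  exact this

theorem hasRed_qExpand' (d : ℕ) [NeZero d] {x : LaurentSeries Qb} {φ : LaurentSeries (kA A)}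
    (h : HasRed A x φ) : HasRed A (qExpand Qb d x) (qExpand (kA A) d φ) :=
  h.map (qExpand A d) (qExpand Qb d) (qExpand (kA A) d) (map_mul _) (map_mul _)
    (fun y => ModularCurve.coeffMap_qExpand _ d y) (fun y => ModularCurve.coeffMap_qExpand _ d y)
    (fun _ hw => (_root_.map_ne_zero _).2 hw)

/-! ## the derivative -/

/-- `(ζ^m - 1)/(ζ - 1)`. -/
def geo (ζ : A) (q : ℕ) (m : ℤ) : A := ∑ i ∈ Finset.range (m % (q : ℤ)).toNat, ζ ^ i

theorem geo_mul (ζ : Aˣ) (hq : q ≠ 0) (hζ : ζ ^ q = 1) (m : ℤ) :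
    geo (ζ : A) q m * ((ζ : A) - 1) = ((ζ ^ m : Aˣ) : A) - 1 := by
  have hn' : (0 : ℤ) < q := by exact_mod_cast Nat.pos_of_ne_zero hq
  have h2 : (((m % (q : ℤ)).toNat : ℕ) : ℤ) = m % (q : ℤ) :=
    Int.toNat_of_nonneg (Int.emod_nonneg _ hn'.ne')
  rw [geo, geom_sum_mul, zpow_eq_pow_emod ζ hζ m, ← h2, zpow_natCast, Units.val_pow_eq_pow_val, h2]

theorem residue_geo (hq : q.Prime) (hA : A.LiesOverPrime q) (ζ : A)
    (hζ : IsLocalRing.residue A ζ = 1) (m : ℤ) :
    IsLocalRing.residue A (geo ζ q m) = (m : kA A) := by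
  have hn' : (0 : ℤ) < q := by exact_mod_cast hq.pos
  have h2 : (((m % (q : ℤ)).toNat : ℕ) : ℤ) = m % (q : ℤ) :=
    Int.toNat_of_nonneg (Int.emod_nonneg _ hn'.ne')
  rw [geo, map_sum]
  simp only [map_pow, hζ, one_pow, Finset.sum_const, Finset.card_range, nsmul_eq_mul, mul_one]
  have h3 : (((m % (q : ℤ)).toNat : ℕ) : kA A) = ((m % (q : ℤ) : ℤ) : kA A) := by
    rw [← h2, Int.cast_natCast, h2]
  rw [h3]
  conv_rhs => rw [← Int.emod_add_mul_ediv m q]
  have h4 : ((q : ℤ) : kA A) = 0 := by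
    rw [Int.cast_natCast]; exact residue_natCast_eq_zero hA
  rw [Int.cast_add, Int.cast_mul, h4, zero_mul, add_zero]

/-- the divided difference operator on `A((Q))`. -/
def dd (ζ : A) (q : ℕ) (c : ℤ) (y : LaurentSeries A) : LaurentSeries A :=
  HahnSeries.mk (fun n => geo ζ q (c * n) * y.coeff n)
    (y.isPWO_support.mono (fun n hn => by
      simp only [Function.mem_support, ne_eq] at hn
      exact fun h => hn (by rw [h, mul_zero])))

@[simp] theorem dd_coeff (ζ : A) (q : ℕ) (c : ℤ) (y : LaurentSeries A) (n : ℤ) :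
    (dd ζ q c y).coeff n = geo ζ q (c * n) * y.coeff n := rfl

theorem twist_eq_add_dd (ζ : Aˣ) (hq : q ≠ 0) (hζ : ζ ^ q = 1) (c : ℤ) (y : LaurentSeries A) :
    twist (ζ ^ c) y = y + HahnSeries.C ((ζ : A) - 1) * dd (ζ : A) q c y := by
  ext n
  rw [twist_coeff, HahnSeries.coeff_add, HahnSeries.C_mul_eq_smul, HahnSeries.coeff_smul, dd_coeff,
    smul_eq_mul, ← mul_assoc, mul_comm ((ζ : A) - 1), geo_mul ζ hq hζ, ← zpow_mul, sub_mul, one_mul,
    add_sub_cancel]

theorem red_dd (hq : q.Prime) (hA : A.LiesOverPrime q) (ζ : A)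
    (hζ : IsLocalRing.residue A ζ = 1) (c : ℤ) (y : LaurentSeries A) :
    coeffMap (IsLocalRing.residue A) (dd ζ q c y) =
      HahnSeries.C ((c : ℤ) : kA A) * CT.theta (coeffMap (IsLocalRing.residue A) y) := by
  ext n
  rw [coeffMap_coeff, dd_coeff, map_mul, residue_geo hq hA ζ hζ, HahnSeries.C_mul_eq_smul,
    HahnSeries.coeff_smul, CT.theta_coeff, coeffMap_coeff, smul_eq_mul, Int.cast_mul, mul_assoc]

theorem residue_rootUnit (hq : q.Prime) (hA : A.LiesOverPrime q) (ζ : Qbˣ) (hζ : ζ ^ q = 1) :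
    IsLocalRing.residue A ((rootUnit A ζ hq.ne_zero hζ : Aˣ) : A) = 1 := by
  have := congrArg Units.val (map_residue_rootUnit hq hA ζ hζ)
  exact this

/-- **the derivative formula**: `(x(ζ^c Q) - x(Q))/(ζ - 1)` reduces to `c θ(x̄)`. -/
theorem hasRed_twist_sub_div (hq : q.Prime) (hA : A.LiesOverPrime q) (ζ : Qbˣ) (hζ : ζ ^ q = 1)
    (hζ1 : ζ ≠ 1) (c : ℤ) {x : LaurentSeries Qb} {φ : LaurentSeries (kA A)} (h : HasRed A x φ) :
    HasRed A ((twist (ζ ^ c) x - x) / HahnSeries.C ((ζ : Qb) - 1))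
      (HahnSeries.C ((c : ℤ) : kA A) * CT.theta φ) := by
  obtain ⟨P, Q, hQ, hP, hx⟩ := h
  set ζA : Aˣ := rootUnit A ζ hq.ne_zero hζ with hζA
  have hζAq : ζA ^ q = 1 := rootUnit_pow A ζ hq.ne_zero hζ
  have hres : IsLocalRing.residue A (ζA : A) = 1 := residue_rootUnit hq hA ζ hζ
  have hC0 : (HahnSeries.C ((ζ : Qb) - 1) : LaurentSeries Qb) ≠ 0 := by
    rw [Ne, map_eq_zero_iff _ HahnSeries.C_injective, sub_eq_zero]
    intro h1
    exact hζ1 (Units.ext h1)
  have hinclC : coeffMap A.subtype (HahnSeries.C ((ζA : A) - 1)) = HahnSeries.C ((ζ : Qb) - 1) := by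
    ext n
    simp only [coeffMap_coeff, HahnSeries.C_apply, HahnSeries.coeff_single]
    split_ifs
    · rfl
    · simp
  have hT : ∀ y : LaurentSeries A, twist (ζ ^ c) (coeffMap A.subtype y) =
      coeffMap A.subtype y + HahnSeries.C ((ζ : Qb) - 1) * coeffMap A.subtype (dd (ζA : A) q c y) := by
    intro y
    have h1 := congrArg (coeffMap A.subtype) (twist_eq_add_dd ζA hq.ne_zero hζAq c y)
    rw [tw_coeffMap, map_zpow, map_subtype_rootUnit, map_add, map_mul, hinclC] at h1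
    exact h1
  have hredT : ∀ y : LaurentSeries A, coeffMap (IsLocalRing.residue A) (twist (ζA ^ c) y) =
      coeffMap (IsLocalRing.residue A) y := by
    intro y
    rw [tw_coeffMap, map_zpow, map_residue_rootUnit hq hA, one_zpow, tw_one]
  refine ⟨dd (ζA : A) q c P * Q - P * dd (ζA : A) q c Q, twist (ζA ^ c) Q * Q, ?_, ?_, ?_⟩
  · rw [map_mul, hredT]
    exact mul_ne_zero hQ hQ
  · rw [map_sub, map_mul, map_mul, map_mul, hredT, red_dd hq hA _ hres, red_dd hq hA _ hres, hP,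
      CT.theta_mul]
    ring
  · have h1 : twist (ζ ^ c) x * twist (ζ ^ c) (coeffMap A.subtype Q)
        = twist (ζ ^ c) (coeffMap A.subtype P) := by
      rw [← map_mul, hx]
    have h2 : coeffMap A.subtype (twist (ζA ^ c) Q) = twist (ζ ^ c) (coeffMap A.subtype Q) := by
      rw [tw_coeffMap, map_zpow, map_subtype_rootUnit]
    have e : coeffMap A.subtype (dd (ζA : A) q c P * Q - P * dd (ζA : A) q c Q)
        = coeffMap A.subtype (dd (ζA : A) q c P) * coeffMap A.subtype Q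
          - coeffMap A.subtype P * coeffMap A.subtype (dd (ζA : A) q c Q) := by
      rw [map_sub, map_mul, map_mul]
    rw [map_mul, h2, e, div_mul_eq_mul_div, div_eq_iff hC0]
    have h3 : (twist (ζ ^ c) x - x) * (twist (ζ ^ c) (coeffMap A.subtype Q) * coeffMap A.subtype Q)
        = twist (ζ ^ c) (coeffMap A.subtype P) * coeffMap A.subtype Q
          - coeffMap A.subtype P * twist (ζ ^ c) (coeffMap A.subtype Q) := by
      rw [← h1, ← hx]; ring
    rw [h3, hT, hT]
    ring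

end Fermat.Agent.CAR.FQ2V
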